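import Fermat.Statements.S42
import Fermat.Statements.S29
import Fermat.Agent.S13.RatProd

/-!
# S42 from S29

`attachment_of_S29`: the frozen statement S42 follows from the (frozen type of the) statement S29.
-/

set_option autoImplicit false

namespace Fermat.Agent.S42

open Polynomial WeierstrassCurve WeierstrassCurve.Affine WeierstrassCurve.Affine.Point

/-- `ℚ̄` -/
local notation "Qb" => AlgebraicClosure ℚ
/-- `Gal(ℚ̄/ℚ)` -/
local notation "GQ" => (AlgebraicClosure ℚ ≃ₐ[ℚ] AlgebraicClosure ℚ)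

section LinAlg

variable {K V : Type*} [Field K] [AddCommGroup V] [Module K V] [Module.Finite K V]

/-- trace and determinant from the characteristic polynomial in rank two -/
theorem trace_det_of_charpoly (h2 : Module.finrank K V = 2) (f : Module.End K V) (t d : K)
    (hf : LinearMap.charpoly f = X ^ 2 - C t * X + C d) :
    LinearMap.trace K V f = t ∧ LinearMap.det f = d := by
  constructor
  · have hcard : Fintype.card (Module.Free.ChooseBasisIndex K V) = 2 := by
      rw [← Module.finrank_eq_card_chooseBasisIndex, h2]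
    have : Nonempty (Module.Free.ChooseBasisIndex K V) := by
      rw [← Fintype.card_pos_iff, hcard]; norm_num
    rw [LinearMap.trace_eq_matrix_trace K (Module.Free.chooseBasis K V),
      Matrix.trace_eq_neg_charpoly_coeff, hcard, ← LinearMap.charpoly_def, hf]
    simp [coeff_C]
  · rw [LinearMap.det_eq_sign_charpoly_coeff, h2, hf]
    simp

end LinAlg

section FiniteLevel

theorem normal_Qb' [alg : Algebra ℚ (AlgebraicClosure ℚ)] : Normal ℚ (AlgebraicClosure ℚ) := by
  obtain rfl : alg = AlgebraicClosure.instAlgebra ℚ := Subsingleton.elim _ _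
  infer_instance

instance normal_Qb : Normal ℚ Qb := normal_Qb'

/-- a finite level can be enlarged to a Galois number field -/
theorem exists_galois_numberField (L : IntermediateField ℚ Qb) (hL : FiniteDimensional ℚ L) :
    ∃ (F : Type) (_ : Field F) (_ : NumberField F) (_ : IsGalois ℚ F)
      (_ : Algebra F Qb) (_ : IsScalarTower ℚ F Qb),
      ∀ σ : GQ, σ ∈ (AlgEquiv.restrictNormalHom (F := ℚ) (K₁ := Qb) F).ker → ∀ x ∈ L, σ x = x := by
  let F : IntermediateField ℚ Qb := IntermediateField.normalClosure ℚ L Qb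
  have : FiniteDimensional ℚ F := normalClosure.is_finiteDimensional ℚ L Qb
  have : Normal ℚ F := normalClosure.normal ℚ L Qb
  have : NumberField F := { to_charZero := inferInstance, to_finiteDimensional := inferInstance }
  have : IsGalois ℚ F := { }
  refine ⟨F, inferInstance, inferInstance, inferInstance, inferInstance, inferInstance, ?_⟩
  intro σ hσ x hx
  have hxF : x ∈ F := IntermediateField.le_normalClosure L hx
  have h1 := AlgEquiv.restrictNormal_commutes σ F ⟨x, hxF⟩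
  rw [MonoidHom.mem_ker] at hσ
  have h2 : σ.restrictNormal F = 1 := hσ
  rw [h2] at h1
  exact h1.symm

/-- the coordinates of a point -/
def coords {W : Affine Qb} : W.Point → Set Qb
  | .zero => ∅
  | .some x y _ => {x, y}

lemma coords_finite {W : Affine Qb} (Q : W.Point) : (coords Q).Finite := by
  cases Q with
  | zero => exact Set.finite_empty
  | some x y h => exact Set.toFinite {x, y}

lemma smul_eq_self_of_coords [DecidableEq Qb] {W : Affine ℚ} (σ : GQ) (Q : (W⁄Qb).Point)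
    (h : ∀ x ∈ coords Q, σ x = x) : σ • Q = Q := by
  cases Q with
  | zero => rfl
  | some x y hxy =>
    have hx : σ x = x := h x (Set.mem_insert _ _)
    have hy : σ y = y := h y (Set.mem_insert_of_mem _ rfl)
    rw [algEquiv_smul_def]
    simp only [Point.map_some, Point.some.injEq]
    exact ⟨hx, hy⟩

/-- finitely many torsion points are defined over a finite extension -/
theorem finiteLevel_of_finite_torsion [DecidableEq Qb] (W : Affine ℚ) (n : ℕ)
    (hfin : Finite (Submodule.torsionBy ℤ (W⁄Qb).Point n)) :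
    ∃ L : IntermediateField ℚ Qb, FiniteDimensional ℚ L ∧
      ∀ σ : GQ, (∀ x ∈ L, σ x = x) → galoisRepModuleEnd (S := ℚ) (K := Qb) W n σ = 1 := by
  let S : Set Qb := ⋃ Q : Submodule.torsionBy ℤ (W⁄Qb).Point n, coords (Q : (W⁄Qb).Point)
  have hS : S.Finite := Set.finite_iUnion fun Q => coords_finite _
  have : Finite S := hS.to_subtype
  refine ⟨IntermediateField.adjoin ℚ S,
    IntermediateField.finiteDimensional_adjoin fun x _ =>
      (Fermat.Agent.S13.isAlgebraic_Kb.isAlgebraic x).isIntegral, ?_⟩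
  intro σ hσ
  ext Q
  rw [galoisRepModuleEnd_apply, Module.End.one_apply]
  refine smul_eq_self_of_coords σ _ fun x hx => hσ x ?_
  exact IntermediateField.subset_adjoin ℚ S (Set.mem_iUnion.mpr ⟨Q, hx⟩)

end FiniteLevel

/-- the frozen type of the statement S29 -/
def S29Statement : Prop :=
  ∀ {N : ℕ} {g : CuspForm (CongruenceSubgroup.Gamma0 N) 2} (_ : g.IsNormalizedEigenform)
    {p : ℕ} (_ : p.Prime) {k : Type} [Field k] [CharP k p]
    (φ : integralClosure ℤ ℂ →+* k),
    ∃ ρ : ResidualGaloisRep k, ρ.IsAttachedTo g φ ∧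
      ∀ ℓ : ℕ, ℓ.Prime → ¬ ℓ ∣ N * p → ρ.IsUnramifiedAt ℓ

/-- S29 implies S42 -/
theorem attachment_of_S29 (h29 : S29Statement) (P : FreyPackage) :
    ∀ M : ℕ, 0 < M → P.EigenformResidualAttachmentAt M := by
  intro M _ g hg 𝔪 h𝔪 hp𝔪
  let _ : Field (integralClosure ℤ ℂ ⧸ 𝔪) := Ideal.Quotient.field 𝔪
  have hpK : ((P.p : ℕ) : integralClosure ℤ ℂ ⧸ 𝔪) = 0 := by
    rw [← map_natCast (Ideal.Quotient.mk 𝔪)]
    exact Ideal.Quotient.eq_zero_iff_mem.mpr hp𝔪
  have : CharP (integralClosure ℤ ℂ ⧸ 𝔪) P.p := (CharP.charP_iff_prime_eq_zero P.pp).mpr hpK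
  obtain ⟨ρ, hatt, -⟩ := h29 hg P.pp (Ideal.Quotient.mk 𝔪)
  obtain ⟨L₁, hL₁, hρ⟩ := ρ.factorsThroughFiniteLevel
  obtain ⟨L₂, hL₂, hE⟩ := finiteLevel_of_finite_torsion P.freyCurve P.p
    (Fermat.Agent.S13.frey_card_le P).1
  obtain ⟨F, iF, iNF, iGal, iAlg, iST, hF⟩ := exists_galois_numberField (L₁ ⊔ L₂)
    (IntermediateField.finiteDimensional_sup L₁ L₂)
  have hne : ∀ ℓ : ℕ, ℓ.Prime → ℓ ≠ P.p → ((ℓ : ℕ) : integralClosure ℤ ℂ ⧸ 𝔪) ≠ 0 := by
    intro ℓ hℓ hℓp h0
    rw [CharP.cast_eq_zero_iff (integralClosure ℤ ℂ ⧸ 𝔪) P.p] at h0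
    exact hℓp ((Nat.prime_dvd_prime_iff_eq P.pp hℓ).mp h0).symm
  refine ⟨integralClosure ℤ ℂ ⧸ 𝔪, inferInstance, ZMod.algebra _ P.p, ρ.V, inferInstance,
    inferInstance, ρ.ρ, Ideal.Quotient.mk 𝔪, F, iF, iNF, iGal, iAlg, iST, ?_, ρ.finrank_eq,
    ?_, ?_, ?_⟩
  · rw [Ideal.mk_ker]
  · intro σ hσ
    have hfix := hF σ hσ
    refine Subgroup.mem_inf.mpr ⟨?_, ?_⟩
    · exact MonoidHom.mem_ker.mpr (hE σ fun x hx => hfix x ((le_sup_right : L₂ ≤ L₁ ⊔ L₂) hx))
    · exact MonoidHom.mem_ker.mpr (hρ σ fun x hx => hfix x ((le_sup_left : L₁ ≤ L₁ ⊔ L₂) hx))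
  · intro ℓ hℓ hℓM hℓp A hA τ hτ
    obtain ⟨a, ha, hc⟩ := hatt ℓ hℓ hℓM (hne ℓ hℓ hℓp) A hA τ hτ
    exact ⟨a, ha, (trace_det_of_charpoly ρ.finrank_eq _ _ _ hc).1⟩
  · intro ℓ hℓ hℓM hℓp A hA τ hτ
    obtain ⟨a, ha, hc⟩ := hatt ℓ hℓ hℓM (hne ℓ hℓ hℓp) A hA τ hτ
    exact (trace_det_of_charpoly ρ.finrank_eq _ _ _ hc).2

end Fermat.Agent.S42
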